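import Fermat.Agent.H45.SS.Model
import Fermat.Agent.H7.SS.GaussSD
import Fermat.Agent.H55.SS.GaussConverse
import Fermat.Agent.H66.SS.ModelQExp2Final
import Fermat.Agent.H62.SS.AtkinLehnerModel
import Fermat.Agent.H4.SS.AtkinLehnerComm

/-!
# P-SS, row 888 (SSH-14, SIGMA-CONGR): `σ ≡ id` modulo `ϖ` on the Gauss closure (helper90)

`modelSigmaCongr (M q) (hq : q.Prime) (hqM : ¬ q ∣ M) :
    Fermat.Agent.H45.ModelSigmaCongrStatement M q ModularCurve.jq` (unconditional).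

Proof: `z ∈ C(x)` lies in `V_∞` and `W z ∈ V_∞` (helper55's converse); helper7's `inM_sigma_sub`
gives `σ z - z ∈ 𝔪_∞` and `σ (W z) - W z = W (σ z - z) ∈ 𝔪_∞` (`W σ = σ W`, helper4);
`𝔪_∞ = ϖ V_∞`; and `V_∞ ∩ W⁻¹ V_∞ ⊆ C(x)` (helper66's two-sided `q`-expansion principle).
-/

set_option autoImplicit false
set_option linter.style.haveILetI false
set_option linter.unusedSectionVars false

noncomputable section

namespace Fermat.Agent.H90.SS

open ModularCurve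
open Fermat.Agent.H22.KL
open Fermat.Agent.H48.QExp
open Fermat.Agent.H82.SS
open Fermat.Agent.H7.SS

/-- converse of `Fermat.Agent.H7.SS.InV.exists_quot`: a quotient of elements of `E` with integral
`q`-expansions, with primitive denominator, lies in the Gauss valuation ring. -/
theorem inV_of_quot {K₁ : Type} [Field K₁] {A₀ : Type} [CommRing A₀] [IsDomain A₀]
    [IsDiscreteValuationRing A₀] [Algebra A₀ K₁] [IsFractionRing A₀ K₁]
    (E : IntermediateField K₁ (LaurentSeries K₁)) (z a b : LaurentSeries K₁)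
    (haE : a ∈ E) (hbE : b ∈ E)
    (ha : ∀ n : ℤ, a.coeff n ∈ (algebraMap A₀ K₁).range)
    (hb : ∀ n : ℤ, b.coeff n ∈ (algebraMap A₀ K₁).range)
    (hbu : ∃ (n : ℤ) (c : A₀), IsUnit c ∧ algebraMap A₀ K₁ c = b.coeff n)
    (h : z * b = a) : InV (A₀ := A₀) E z := by
  have hφ : Function.Injective (algebraMap A₀ K₁) := IsFractionRing.injective A₀ K₁
  obtain ⟨a₀, ha₀⟩ := exists_coeffMap_eq (algebraMap A₀ K₁) hφ a ha
  obtain ⟨b₀, hb₀⟩ := exists_coeffMap_eq (algebraMap A₀ K₁) hφ b hb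
  refine ⟨a₀, b₀, ?_, ?_, ?_, ?_⟩
  · rw [show gIota K₁ A₀ a₀ = a from ha₀]
    exact haE
  · rw [show gIota K₁ A₀ b₀ = b from hb₀]
    exact hbE
  · obtain ⟨n, c, hc, hcn⟩ := hbu
    apply coeffMap_ne_zero_of_coeff _ b₀ n
    have hbc : b₀.coeff n = c := by
      apply hφ
      rw [hcn, ← hb₀, coeffMap_coeff]
    rw [hbc, Ne, IsLocalRing.residue_eq_zero_iff]
    exact fun hmem => (IsLocalRing.mem_maximalIdeal _).1 hmem hc
  · rw [show gIota K₁ A₀ a₀ = a from ha₀, show gIota K₁ A₀ b₀ = b from hb₀]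
    exact h

/-- **SSH-14 (SIGMA-CONGR)**, unconditional for a prime `q ∤ M`. -/
theorem modelSigmaCongr (M q : ℕ) [NeZero M] [NeZero q] (hq : q.Prime) (hqM : ¬ q ∣ M) :
    Fermat.Agent.H45.ModelSigmaCongrStatement M q ModularCurve.jq := by
  intro K₁ _ _ _ A₀ _ _ _ _ _ _ _ hqA ϖ hϖ x hx σ₁ hI z hz
  have hMq : Nat.Coprime M q := ((Nat.Prime.coprime_iff_not_dvd hq).mpr hqM).symm
  obtain ⟨W, hW⟩ := Fermat.Agent.H62.SS.modelAtkinLehnerExists M q hMq K₁
  have hcomm := fun y => Fermat.Agent.H4.SS.atkinLehnerComm_prime M q hq K₁ W hW σ₁ y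
  have hQ := Fermat.Agent.H66.SS.modelQExp2 M q hq hqM
  have hφ : Function.Injective (algebraMap A₀ K₁) := IsFractionRing.injective A₀ K₁
  have hϖ0 : algebraMap A₀ K₁ ϖ ≠ 0 := fun h0 => hϖ.ne_zero ((map_eq_zero_iff _ hφ).1 h0)
  obtain ⟨⟨a, b, ha, hb, hbu, hab⟩, ⟨a', b', ha', hb', hbu', hab'⟩⟩ :=
    Fermat.Agent.H55.SS.modelGaussConverse M q K₁ A₀ hqA ϖ hϖ x hx W hW z hz
  have h1 : InV (A₀ := A₀) (laurentBaseChange K₁ (modularFunctionFieldFull (M * q)))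
      (z : LaurentSeries K₁) :=
    inV_of_quot _ _ (a : LaurentSeries K₁) (b : LaurentSeries K₁) a.2 b.2 ha hb hbu
      (congrArg Subtype.val hab)
  have h2 : InV (A₀ := A₀) (laurentBaseChange K₁ (modularFunctionFieldFull (M * q)))
      (W z : LaurentSeries K₁) := by
    have hWab : W z * W b' = W a' := by rw [← map_mul, hab']
    exact inV_of_quot _ _ (W a' : LaurentSeries K₁) (W b' : LaurentSeries K₁) (W a').2 (W b').2
      ha' hb' hbu' (congrArg Subtype.val hWab)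
  have hI' : ∀ a : A₀, ∃ b : A₀,
      algebraMap A₀ K₁ b = (σ₁ : K₁ →+* K₁) (algebraMap A₀ K₁ a) ∧ ¬ IsUnit (b - a) := hI
  have hσ : ∀ y : ModelField K₁ (M * q),
      ((modelSigma K₁ (M * q) σ₁ y : ModelField K₁ (M * q)) : LaurentSeries K₁) =
        coeffMap (σ₁ : K₁ →+* K₁) (y : LaurentSeries K₁) := fun y => rfl
  have hE : ∀ y ∈ laurentBaseChange K₁ (modularFunctionFieldFull (M * q)),
      coeffMap (σ₁ : K₁ →+* K₁) y ∈ laurentBaseChange K₁ (modularFunctionFieldFull (M * q)) := by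
    intro y hy
    have := (modelSigma K₁ (M * q) σ₁ ⟨y, hy⟩).2
    rwa [hσ] at this
  have m1 := inM_sigma_sub _ (σ₁ : K₁ →+* K₁) hI' hE h1
  have m2 := inM_sigma_sub _ (σ₁ : K₁ →+* K₁) hI' hE h2
  have hu1 : InM (A₀ := A₀) (laurentBaseChange K₁ (modularFunctionFieldFull (M * q)))
      ((modelSigma K₁ (M * q) σ₁ z - z : ModelField K₁ (M * q)) : LaurentSeries K₁) := m1
  have hu2 : InM (A₀ := A₀) (laurentBaseChange K₁ (modularFunctionFieldFull (M * q)))
      ((W (modelSigma K₁ (M * q) σ₁ z - z) : ModelField K₁ (M * q)) : LaurentSeries K₁) := by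
    rw [map_sub, hcomm]
    exact m2
  generalize modelSigma K₁ (M * q) σ₁ z - z = u at hu1 hu2 ⊢
  refine ⟨algebraMap K₁ (ModelField K₁ (M * q)) (algebraMap A₀ K₁ ϖ)⁻¹ * u, ?_, ?_⟩
  · refine mem_gaussClosure_of_inV M q jq hQ K₁ A₀ hqA ϖ hϖ x hx W hW _ ?_ ?_
    · exact InM.inV_div _ hu1 hϖ
    · rw [map_mul, W.commutes]
      exact InM.inV_div _ hu2 hϖ
  · rw [IsScalarTower.algebraMap_apply A₀ K₁ (ModelField K₁ (M * q)), ← mul_assoc, ← map_mul,
      mul_inv_cancel₀ hϖ0, map_one, one_mul]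

end Fermat.Agent.H90.SS
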